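import Fermat.Agent.GAL.KLC.X3.Defs
import Fermat.Agent.GAL.KLC.XMem

/-!
# GAL / KLC / X3 : `Ψ(x) = ∏ u_{d_T}^{e_T} j^{e₀}` as analytic functions  (P5)
-/

set_option autoImplicit false

open UpperHalfPlane ModularForm Function ModularCurve
open scoped MatrixGroups

noncomputable section

namespace Fermat.Agent.GAL.KLC

open Fermat.Agent.S24

local notation "Δ" => ModularForm.discriminant

theorem Lam_qExpand_congr {a b : ℕ} [NeZero a] [NeZero b] (h : a = b) (x : LaurentSeries ℂ) :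
    qExpand ℂ a x = qExpand ℂ b x := by
  subst h
  rfl

theorem Lam_ofPowerSeries_discriminant :
    HahnSeries.ofPowerSeries ℤ ℂ (qExpansion 1 Δ) = S28.DqC ℂ := by
  rw [S24.qExpansion_discriminant, map_mul, HahnSeries.ofPowerSeries_X]
  rfl

theorem Lam_scaleH_one (τ : ℍ) : scaleH 1 τ = τ := by
  apply UpperHalfPlane.ext
  simp

/-- the `Q`-expansion of `Δ(d·)`. -/
theorem Lam_discriminant_scaleH (N d : ℕ) [NeZero N] [NeZero d] (A : MerInf N)
    (hA : A.1 = fun τ => Δ (scaleH d τ)) : Lam N A = qExpand ℂ (N * d) (S28.DqC ℂ) := by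
  have hΔ : IsNice N (fun τ => Δ (scaleH d τ)) := isNice_comp_scaleH N d isNice_discriminant_one
  rw [Lam_of_isNice N A (by rw [hA]; exact hΔ), hA, ← Lam_ofPowerSeries_discriminant]
  exact ofPowerSeries_qExpansion_comp_scaleH N d (f := Δ) isNice_discriminant_one

/-- the `Q`-expansion of `Δ`. -/
theorem Lam_discriminant (N : ℕ) [NeZero N] (D : MerInf N) (hD : D.1 = Δ) :
    Lam N D = qExpand ℂ N (S28.DqC ℂ) := by
  rw [Lam_discriminant_scaleH N 1 D (by rw [hD]; funext τ; rw [Lam_scaleH_one])]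
  exact Lam_qExpand_congr (mul_one N) _

theorem Lam_coeffMap_uU (d : ℕ) [NeZero d] :
    coeffMap (Int.castRingHom ℂ) ((uU d : (LaurentSeries ℤ)ˣ) : LaurentSeries ℤ)
      = qExpand ℂ d (S28.DqC ℂ) * S28.DqInvC ℂ := by
  have h1 : ((uU d : (LaurentSeries ℤ)ˣ) : LaurentSeries ℤ)
      = S28.qE ℤ d (S28.DqC ℤ) * S28.DqInvC ℤ := rfl
  rw [h1, map_mul, S28.coeffMap_qE, S28.coeffMap_DqC, S28.coeffMap_DqInvC, S28.qE_eq]

/-- **P5a.** the `Q`-expansion of `u_d`. -/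
theorem LamL_udL (N d : ℕ) [NeZero N] (hd : d ∣ N) :
    LamL N (udL N d) = qExpand ℂ N (coeffMap (Int.castRingHom ℂ) (uU d : LaurentSeries ℤ)) := by
  have : NeZero d := ⟨fun h => NeZero.ne N (Nat.eq_zero_of_zero_dvd (h ▸ hd))⟩
  rw [udL_of_dvd N d hd, LamL_algebraMap, Lam_coeffMap_uU, map_mul, qExpand_qExpand]
  have hΔd : IsNice N (fun τ => Δ (scaleH d τ)) := isNice_comp_scaleH N d isNice_discriminant_one
  obtain ⟨A, hA⟩ : ∃ A : MerInf N, A.1 = fun τ => Δ (scaleH d τ) := ⟨⟨_, hΔd.mem_MerInf⟩, rfl⟩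
  obtain ⟨D, hD⟩ : ∃ D : MerInf N, D.1 = Δ := ⟨⟨_, (isNice_discriminant N).mem_MerInf⟩, rfl⟩
  obtain ⟨U, hU⟩ : ∃ U : MerInf N, U = Subalgebra.inclusion (MerMod_le_MerInf N) (udM N d hd) :=
    ⟨_, rfl⟩
  have hU1 : U.1 = udFun d := by rw [hU]; rfl
  have hLU : LamM N (udM N d hd) = Lam N U := by rw [hU]; rfl
  have hmul : D * U = A := by
    apply Subtype.ext
    funext τ
    have : (D * U).1 τ = D.1 τ * U.1 τ := rfl
    rw [this, hD, hU1, hA]
    unfold udFun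
    exact mul_div_cancel₀ _ (ModularForm.discriminant_ne_zero τ)
  have h1 : qExpand ℂ N (S28.DqC ℂ) * Lam N U = qExpand ℂ (N * d) (S28.DqC ℂ) := by
    rw [← Lam_discriminant N D hD, ← Lam_discriminant_scaleH N d A hA, ← map_mul, hmul]
  have h2 : qExpand ℂ N (S28.DqC ℂ) * qExpand ℂ N (S28.DqInvC ℂ) = 1 := by
    rw [← map_mul, S28.DqC_mul_DqInvC, map_one]
  rw [hLU, ← h1]
  calc Lam N U = (qExpand ℂ N (S28.DqC ℂ) * qExpand ℂ N (S28.DqInvC ℂ)) * Lam N U := by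
        rw [h2, one_mul]
    _ = _ := by ring

/-- **P5b.** the `Q`-expansion of `j`. -/
theorem LamL_jM (N : ℕ) [NeZero N] :
    LamL N (algebraMap (MerMod N) (S24.LL N) (jM N))
      = qExpand ℂ N (coeffMap (Int.castRingHom ℂ) (jqModC ℤ)) := by
  rw [← Psi_JJ, LamL_Psi, JJ, kap_Jd]
  have h : coeffMap (Int.castRingHom ℂ) (jqModC ℤ) = jqModC ℂ := map_jqModC (Int.castRingHom ℂ)
  rw [h]
  exact Lam_qExpand_congr (mul_one N) _

/-- **P5c.** -/
theorem Psi_of_XZ (M : ℕ) [NeZero M] (s : ℕ)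
    (hmem : coeffMap (Int.castRingHom Qb) ((hU M : LaurentSeries ℤ) * jqModC ℤ ^ s) ∈ FL Qb M) :
    Psi M ⟨_, hmem⟩
      = (∏ T ∈ M.primeFactors.powerset, udL M (S28.E4.dT M T) ^ S28.E4.expT M T)
        * algebraMap (MerMod M) (S24.LL M) (jM M) ^ s := by
  apply LamL_injective M
  rw [LamL_Psi, kap_apply]
  change qExpand ℂ M (coeffMap iota (coeffMap (Int.castRingHom Qb)
    ((hU M : LaurentSeries ℤ) * jqModC ℤ ^ s))) = _
  rw [map_mul (LamL M), map_prod, map_pow, LamL_jM]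
  have hcomp : iota.comp (Int.castRingHom Qb) = Int.castRingHom ℂ := RingHom.ext_int _ _
  rw [coeffMap_coeffMap, hcomp, map_mul, map_mul, map_pow, map_pow]
  congr 1
  set φ : LaurentSeries ℤ →+* LaurentSeries ℂ :=
    (qExpand ℂ M).comp (coeffMap (Int.castRingHom ℂ)) with hφ
  have h1 : qExpand ℂ M (coeffMap (Int.castRingHom ℂ) ((hU M : (LaurentSeries ℤ)ˣ) : LaurentSeries ℤ))
      = ((Units.map (φ : LaurentSeries ℤ →* LaurentSeries ℂ) (hU M) : (LaurentSeries ℂ)ˣ)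
          : LaurentSeries ℂ) := rfl
  rw [h1]
  unfold hU
  rw [map_prod, Units.coe_prod]
  refine Finset.prod_congr rfl fun T hT => ?_
  rw [map_zpow, Units.val_zpow_eq_zpow_val, map_zpow₀, LamL_udL M _ (S28.E4.dT_dvd M hT)]
  rfl

end Fermat.Agent.GAL.KLC
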