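import Fermat.Agent.GAL.KLC.XSeries

/-!
# GAL / KLC / X3 : the combinatorial identity for the orders of the eta quotient at the cusps (P6)
-/

set_option autoImplicit false

namespace Fermat.Agent.GAL.KLC

open Fermat.Agent.S28.E4

theorem x3comb_gcd_step {p : ℕ} (hp : p.Prime) {d : ℕ} (hd : d ≠ 0) (n : ℕ) :
    Nat.gcd (p * d) n = Nat.gcd d n ∨ Nat.gcd (p * d) n = p * Nat.gcd d n := by
  have hG : 0 < Nat.gcd d n := Nat.gcd_pos_of_pos_left n (Nat.pos_of_ne_zero hd)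
  have h1 : Nat.gcd d n ∣ Nat.gcd (p * d) n :=
    Nat.dvd_gcd ((Nat.gcd_dvd_left d n).trans (Dvd.intro_left p rfl)) (Nat.gcd_dvd_right d n)
  have h2 : Nat.gcd (p * d) n ∣ p * Nat.gcd d n := by
    rw [Nat.gcd_comm (p * d) n, Nat.gcd_comm d n]
    exact (Nat.gcd_mul_right_dvd_mul_gcd n p d).trans (Nat.mul_dvd_mul_right (Nat.gcd_dvd_right n p) _)
  obtain ⟨e, he⟩ := h1
  rw [he, mul_comm p] at h2
  have h3 : e ∣ p := Nat.dvd_of_mul_dvd_mul_left hG h2
  rcases (Nat.dvd_prime hp).mp h3 with rfl | rfl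
  · left; rw [he, mul_one]
  · right; rw [he, mul_comm]

theorem x3comb_gcd_nb {p : ℕ} (hp : p.Prime) {d : ℕ} (hd : d ≠ 0) (n : ℕ)
    (h : Nat.gcd (p * d) n = Nat.gcd d n) : Nat.gcd (p * (p * d)) n = Nat.gcd (p * d) n := by
  have hG : 0 < Nat.gcd d n := Nat.gcd_pos_of_pos_left n (Nat.pos_of_ne_zero hd)
  rcases x3comb_gcd_step hp (mul_ne_zero hp.ne_zero hd) n with h1 | h1
  · exact h1
  · exfalso
    rw [h] at h1
    have h2 : p * Nat.gcd d n ∣ n := h1 ▸ Nat.gcd_dvd_right _ _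
    have h3 : p * Nat.gcd d n ∣ p * d := Nat.mul_dvd_mul_left p (Nat.gcd_dvd_left d n)
    have h4 : p * Nat.gcd d n ∣ Nat.gcd (p * d) n := Nat.dvd_gcd h3 h2
    rw [h] at h4
    have h5 := Nat.le_of_dvd hG h4
    have := hp.two_le
    nlinarith

/-- `gcd(d,c)² / d`. -/
noncomputable def x3combR (n : ℕ) (d : ℕ) : ℚ := (Nat.gcd d n : ℚ) ^ 2 / d

theorem x3comb_sum_eq_zero (M : ℕ) [NeZero M] (n : ℕ) (hn : ¬ M ∣ n) :
    ∑ T ∈ M.primeFactors.powerset, (expT M T : ℚ) * x3combR n (dT M T) = 0 := by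
  have hM : M ≠ 0 := NeZero.ne M
  have hne : ∀ d, d ∣ M → d ≠ 0 := fun d hd h0 => hM (by rw [h0] at hd; exact Nat.eq_zero_of_zero_dvd hd)
  have hpos : ∀ d, d ∣ M → 0 < x3combR n d := by
    intro d hd
    have h1 : 0 < d := Nat.pos_of_ne_zero (hne d hd)
    have h2 : 0 < Nat.gcd d n := Nat.gcd_pos_of_pos_left n h1
    unfold x3combR
    positivity
  have hup : ∀ p d : ℕ, p.Prime → d ≠ 0 → Nat.gcd (p * d) n = p * Nat.gcd d n →
      x3combR n (p * d) = p * x3combR n d := by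
    intro p d hp hd h
    have hp0 : (p : ℚ) ≠ 0 := by exact_mod_cast hp.ne_zero
    have hd0 : (d : ℚ) ≠ 0 := by exact_mod_cast hd
    unfold x3combR
    rw [h]
    push_cast
    field_simp
  have hdown : ∀ p d : ℕ, p.Prime → d ≠ 0 → Nat.gcd (p * d) n = Nat.gcd d n →
      x3combR n (p * d) = x3combR n d / p := by
    intro p d hp hd h
    have hp0 : (p : ℚ) ≠ 0 := by exact_mod_cast hp.ne_zero
    have hd0 : (d : ℚ) ≠ 0 := by exact_mod_cast hd
    unfold x3combR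
    rw [h]
    push_cast
    field_simp
  have hsum := S28.comb_main M hM (x3combR n) hpos (by simp [x3combR])
    (by
      intro p d hp hpd
      have hd : d ≠ 0 := right_ne_zero_of_mul (hne _ hpd)
      rcases x3comb_gcd_step hp hd n with h | h
      · exact Or.inr (hdown p d hp hd h)
      · exact Or.inl (hup p d hp hd h))
    (by
      intro p d hp hpd hr
      have hpd0 : p * d ≠ 0 := right_ne_zero_of_mul (hne _ hpd)
      have hd : d ≠ 0 := right_ne_zero_of_mul hpd0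
      have hdM : d ∣ M := (Dvd.intro_left p rfl).trans ((Dvd.intro_left p rfl).trans hpd)
      apply hdown p (p * d) hp hpd0
      apply x3comb_gcd_nb hp hd
      rcases x3comb_gcd_step hp hd n with h | h
      · exact h
      · exfalso
        rw [hup p d hp hd h] at hr
        have h1 := hpos d hdM
        have h2 : (1 : ℚ) < p := by exact_mod_cast hp.one_lt
        have h3 : x3combR n d / p < x3combR n d := div_lt_self h1 h2
        have h4 : x3combR n d < p * x3combR n d := lt_mul_of_one_lt_left h1 h2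
        linarith)
  rcases hsum with h | h
  · exfalso
    apply hn
    have h1 := h M dvd_rfl
    have hM0 : (M : ℚ) ≠ 0 := by exact_mod_cast hM
    unfold x3combR at h1
    rw [div_eq_iff hM0, ← pow_two] at h1
    have h2 : Nat.gcd M n ^ 2 = M ^ 2 := by exact_mod_cast h1
    have h3 : Nat.gcd M n = M := Nat.pow_left_injective (n := 2) (by norm_num) h2
    exact h3 ▸ Nat.gcd_dvd_right M n
  · rw [← neg_eq_zero, ← h, ← Finset.sum_neg_distrib]
    refine Finset.sum_congr rfl fun T _ => ?_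
    unfold expT dT
    push_cast
    ring

theorem x3comb_term (M : ℕ) [NeZero M] (c : ℤ) {T : Finset ℕ} (hT : T ∈ M.primeFactors.powerset) :
    ((M / dT M T : ℕ) : ℚ) * ((Int.gcd (dT M T) c : ℕ) : ℚ) ^ 2
      = M * x3combR c.natAbs (dT M T) := by
  have hM : M ≠ 0 := NeZero.ne M
  have hd : dT M T ∣ M := dT_dvd M hT
  have hd0 : dT M T ≠ 0 := fun h0 => hM (by rw [h0] at hd; exact Nat.eq_zero_of_zero_dvd hd)
  have hd0' : ((dT M T : ℕ) : ℚ) ≠ 0 := by exact_mod_cast hd0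
  have hg : Int.gcd (dT M T) c = Nat.gcd (dT M T) c.natAbs := by
    rw [Int.gcd_def, Int.natAbs_natCast]
  unfold x3combR
  rw [hg, Nat.cast_div hd hd0']
  field_simp

/-- **P6a.** at a cusp not equivalent to `∞`. -/
theorem sum_expT_gcd (M : ℕ) [NeZero M] (c : ℤ) (hc : ¬ (M : ℤ) ∣ c) :
    ∑ T ∈ M.primeFactors.powerset,
      expT M T * ((M : ℤ) - ((M / dT M T : ℕ) : ℤ) * ((Int.gcd (dT M T) c : ℕ) : ℤ) ^ 2)
      = - ((M : ℤ) * e0 M) := by
  have hn : ¬ M ∣ c.natAbs := fun h => hc (Int.natCast_dvd.mpr h)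
  have h0 := x3comb_sum_eq_zero M c.natAbs hn
  have h1 : ((∑ T ∈ M.primeFactors.powerset, expT M T : ℤ) : ℚ) = -(e0 M : ℚ) := by
    rw [XSeries_sum_expT]
    push_cast
    rfl
  have key : ((∑ T ∈ M.primeFactors.powerset,
      expT M T * ((M : ℤ) - ((M / dT M T : ℕ) : ℤ) * ((Int.gcd (dT M T) c : ℕ) : ℤ) ^ 2) : ℤ) : ℚ)
      = ((- ((M : ℤ) * e0 M) : ℤ) : ℚ) := by
    simp only [Int.cast_sum, Int.cast_mul, Int.cast_sub, Int.cast_pow, Int.cast_natCast,
      Int.cast_neg] at h1 ⊢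
    have h2 : ∀ T ∈ M.primeFactors.powerset, (expT M T : ℚ) * ((M : ℚ) -
        ((M / dT M T : ℕ) : ℚ) * ((Int.gcd (dT M T) c : ℕ) : ℚ) ^ 2)
        = M * (expT M T : ℚ) - M * ((expT M T : ℚ) * x3combR c.natAbs (dT M T)) := by
      intro T hT
      rw [x3comb_term M c hT]
      ring
    rw [Finset.sum_congr rfl h2, Finset.sum_sub_distrib, ← Finset.mul_sum, ← Finset.mul_sum, h0, h1]
    ring
  exact_mod_cast key

/-- **P6b.** at `∞`. -/
theorem sum_expT_gcd_of_dvd (M : ℕ) [NeZero M] (c : ℤ) (hc : (M : ℤ) ∣ c) :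
    ∑ T ∈ M.primeFactors.powerset,
      expT M T * ((M : ℤ) - ((M / dT M T : ℕ) : ℤ) * ((Int.gcd (dT M T) c : ℕ) : ℤ) ^ 2)
      = (M : ℤ) * mX M - (M : ℤ) * e0 M := by
  have h2 : ∀ T ∈ M.primeFactors.powerset, expT M T * ((M : ℤ) -
      ((M / dT M T : ℕ) : ℤ) * ((Int.gcd (dT M T) c : ℕ) : ℤ) ^ 2)
      = M * expT M T - M * (expT M T * (dT M T : ℤ)) := by
    intro T hT
    have hd : dT M T ∣ M := dT_dvd M hT
    have hg : Int.gcd (dT M T) c = dT M T := by
      have : ((dT M T : ℕ) : ℤ) ∣ c := (Int.natCast_dvd_natCast.mpr hd).trans hc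
      rw [Int.gcd_eq_natAbs_left this, Int.natAbs_natCast]
    have hmul : ((M / dT M T : ℕ) : ℤ) * (dT M T : ℤ) = M := by
      exact_mod_cast Nat.div_mul_cancel hd
    rw [hg]
    have : ((M / dT M T : ℕ) : ℤ) * ((dT M T : ℕ) : ℤ) ^ 2 = M * (dT M T : ℤ) := by
      rw [pow_two, ← mul_assoc, hmul]
    rw [this]
    ring
  rw [Finset.sum_congr rfl h2, Finset.sum_sub_distrib, ← Finset.mul_sum, ← Finset.mul_sum,
    XSeries_sum_expT, ← XSeries_mX]
  ring

end Fermat.Agent.GAL.KLC
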