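import Fermat.Agent.S24.Mod.LocalInt
import Fermat.Agent.S24.Mod.LocalCusp
import Fermat.Agent.GR.HeckeField.AffExp

/-!
# GAL / KLC / X3 : the functions `u_d(τ) = Δ(dτ)/Δ(τ)` on the upper half plane (definitions + P1, P2)
-/

set_option autoImplicit false

open UpperHalfPlane ModularForm Function
open scoped MatrixGroups

noncomputable section

namespace Fermat.Agent.GAL.KLC

open Fermat.Agent.S24

local notation "Δ" => ModularForm.discriminant

/-- `u_d(τ) = Δ(dτ)/Δ(τ)`. -/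
def udFun (d : ℕ) [NeZero d] : ℍ → ℂ := fun τ => Δ (scaleH d τ) / Δ τ

theorem udFun_ne_zero (d : ℕ) [NeZero d] (τ : ℍ) : udFun d τ ≠ 0 :=
  div_ne_zero (ModularForm.discriminant_ne_zero _) (ModularForm.discriminant_ne_zero _)

/-- **P1.** transformation of `u_d` under `SL(2,ℤ)`. -/
theorem udFun_smul (d : ℕ) [NeZero d] (γ : SL(2, ℤ)) :
    ∃ (a e : ℕ) (b : ℤ) (ha : 0 < a) (he : 0 < e), a * e = d ∧ a = Int.gcd d (γ 1 0) ∧
      ∀ τ : ℍ, udFun d (γ • τ) = ((e : ℂ) ^ 12)⁻¹ * (Δ (affH a e b ha he τ) / Δ τ) := by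
  obtain ⟨σ, a, e, b, ha, he, hae, h10, hmat⟩ := Her.exists_hnf_pos d γ
  have hd : d ≠ 0 := NeZero.ne d
  -- the (0,0) entry
  have h00 : (d : ℤ) * γ 0 0 = σ 0 0 * a := by
    have h := congrArg (fun M : GL (Fin 2) ℝ => (M : Matrix (Fin 2) (Fin 2) ℝ) 0 0) hmat
    simp only [Units.val_mul, val_heckeDiagMatrix hd,
      val_upperTriangularGL, Matrix.mul_apply,
      Fin.sum_univ_two, Fermat.Agent.S23.Prim.mapGL_val_apply] at h
    simp at h
    exact_mod_cast h
  -- the (1,1) entry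
  have h11 : γ 1 1 = σ 1 0 * b + σ 1 1 * e := by
    have h := congrArg (fun M : GL (Fin 2) ℝ => (M : Matrix (Fin 2) (Fin 2) ℝ) 1 1) hmat
    simp only [Units.val_mul, val_heckeDiagMatrix hd,
      val_upperTriangularGL, Matrix.mul_apply,
      Fin.sum_univ_two, Fermat.Agent.S23.Prim.mapGL_val_apply] at h
    simp at h
    exact_mod_cast h
  have hscale : ∀ τ : ℍ, scaleH d (γ • τ) = σ • affH a e b ha he τ := by
    intro τ
    rw [Her.scaleH_eq_smul, Her.affH_eq_smul]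
    change heckeDiagMatrix d • (Matrix.SpecialLinearGroup.mapGL ℝ γ) • τ =
      (Matrix.SpecialLinearGroup.mapGL ℝ σ) • _
    rw [← mul_smul, ← mul_smul, hmat]
  refine ⟨a, e, b, ha, he, hae, ?_, fun τ => ?_⟩
  · -- the gcd
    have haZ : (a : ℤ) ≠ 0 := by exact_mod_cast ha.ne'
    have hσ00 : σ 0 0 = e * γ 0 0 := by
      have h1 : (a : ℤ) * (σ 0 0) = a * (e * γ 0 0) := by
        have : (d : ℤ) = a * e := by exact_mod_cast hae.symm
        rw [this] at h00
        linarith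
      exact mul_left_cancel₀ haZ h1
    have hdet : σ 0 0 * σ 1 1 - σ 0 1 * σ 1 0 = 1 := by
      have := σ.det_coe
      rwa [Matrix.det_fin_two] at this
    have hcop : IsCoprime (e : ℤ) (σ 1 0) := ⟨γ 0 0 * σ 1 1, -σ 0 1, by rw [hσ00] at hdet; linarith⟩
    have hg : Int.gcd (e : ℤ) (σ 1 0) = 1 := Int.isCoprime_iff_gcd_eq_one.mp hcop
    have : (d : ℤ) = a * e := by exact_mod_cast hae.symm
    rw [this, h10, mul_comm (σ 1 0) (a : ℤ), Int.gcd_mul_left, hg]
    simp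
  · have he' : (e : ℂ) ≠ 0 := by exact_mod_cast he.ne'
    have hden : denom σ (affH a e b ha he τ) * e = denom γ τ := by
      rw [ModularGroup.denom_apply, ModularGroup.denom_apply, coe_affH]
      have e10 : ((γ 1 0 : ℤ) : ℂ) = (σ 1 0 : ℤ) * a := by exact_mod_cast congrArg (Int.cast : ℤ → ℂ) h10
      have e11 : ((γ 1 1 : ℤ) : ℂ) = (σ 1 0 : ℤ) * b + (σ 1 1 : ℤ) * e := by
        exact_mod_cast congrArg (Int.cast : ℤ → ℂ) h11
      rw [e10, e11]
      field_simp
      ring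
    have hγ : denom γ τ ≠ 0 := denom_ne_zero _ _
    have hΔ : Δ τ ≠ 0 := ModularForm.discriminant_ne_zero τ
    rw [udFun, hscale, discriminant_smul, discriminant_smul, ← hden]
    have hσ : denom σ (affH a e b ha he τ) ≠ 0 := denom_ne_zero _ _
    rw [zpow_ofNat, zpow_ofNat]
    field_simp

/-- **P2.** -/
theorem udFun_mem_MerMod {N d : ℕ} [NeZero N] [NeZero d] (hd : d ∣ N) : udFun d ∈ MerMod N := by
  intro γ
  obtain ⟨a, e, b, ha, he, hae, -, h⟩ := udFun_smul d γ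
  refine ⟨1, ?_⟩
  have heN : e ∣ N := (Dvd.intro_left a hae).trans hd
  obtain ⟨m, hm⟩ := heN
  have h1 : IsNice N (fun τ => Δ (affH a e b ha he τ)) :=
    Fermat.Agent.GR.HeckeField.isNice_comp_affH a e b ha he (N := N) (k := m * a)
      (by rw [hm]; ring) isNice_discriminant_one
  have h2 := (IsNice.const N (((e : ℂ) ^ 12)⁻¹)).mul h1
  convert h2 using 1
  funext τ
  have hΔ : Δ τ ≠ 0 := ModularForm.discriminant_ne_zero τ
  simp only [Pi.mul_apply]
  rw [h, pow_one]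
  field_simp

/-- `u_d` as an element of `MerMod N`. -/
def udM (N d : ℕ) [NeZero N] [NeZero d] (hd : d ∣ N) : MerMod N := ⟨udFun d, udFun_mem_MerMod hd⟩

/-- `u_d` as an element of `LL N` (junk value `1` if `d ∤ N`). -/
def udL (N d : ℕ) [NeZero N] : S24.LL N :=
  if hd : d ∣ N then
    haveI : NeZero d := ⟨fun h => NeZero.ne N (Nat.eq_zero_of_zero_dvd (h ▸ hd))⟩
    algebraMap (MerMod N) (S24.LL N) (udM N d hd)
  else 1

theorem udL_of_dvd (N d : ℕ) [NeZero N] [NeZero d] (hd : d ∣ N) :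
    udL N d = algebraMap (MerMod N) (S24.LL N) (udM N d hd) := by
  rw [udL, dif_pos hd]

end Fermat.Agent.GAL.KLC
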