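import Fermat.Agent.S24.Mod.LocalCusp
import Fermat.Agent.GR.HeckeField.AffExp
import Fermat.Agent.GAL.Genus.Forms

/-!
# GAL / KLC / X3 : orders at `i∞`  (P3a, P3b)
-/

set_option autoImplicit false

open UpperHalfPlane ModularForm Function
open scoped MatrixGroups

noncomputable section

namespace Fermat.Agent.GAL.KLC

open Fermat.Agent.S24

local notation "Δ" => ModularForm.discriminant

open Filter Topology in
/-- **P3a.** `Δ((aτ+b)/e)` vanishes to order `k = N a / e` in `Q = exp(2πiτ/N)`. -/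
theorem order_cuspFunction_discriminant_affH (N k a e : ℕ) [NeZero N] (b : ℤ) (ha : 0 < a)
    (he : 0 < e) (hk : k * e = N * a) :
    meromorphicOrderAt (UpperHalfPlane.cuspFunction N (fun τ => Δ (affH a e b ha he τ))) 0
      = ((k : ℤ) : WithTop ℤ) := by
  have hN := LC_natCast_pos N
  set G : ℍ → ℂ := fun τ => Δ (affH a e b ha he τ) with hGdef
  have hnice : IsNice N G := by
    have h1 : IsNice ((1 : ℕ) : ℝ) Δ := isNice_discriminant 1
    rw [Nat.cast_one] at h1
    exact GR.HeckeField.isNice_comp_affH a e b ha he hk h1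
  have ht : Tendsto (fun z : ℂ => ofComplex (Periodic.invQParam N z)) (𝓝[≠] 0) atImInfty :=
    tendsto_comap_im_ofComplex.comp (Periodic.invQParam_tendsto hN)
  have h1 := (tendsto_atImInfty_tprod_one_sub_eta_q_pow.comp (Her.tendsto_affH a e b ha he)).comp ht
  have h1' := h1.const_mul ((GR.HeckeField.rootU e b : ℂˣ) : ℂ)
  rw [mul_one] at h1'
  have han : AnalyticAt ℂ (UpperHalfPlane.cuspFunction N G) 0 := hnice.LC_analyticAt_cuspFunction
  have hmer : MeromorphicAt (fun z : ℂ => z ^ k) 0 := by fun_prop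
  have h2 : Tendsto (UpperHalfPlane.cuspFunction N G * (fun z : ℂ => z ^ k)⁻¹) (𝓝[≠] 0)
      (𝓝 ((GR.HeckeField.rootU e b : ℂˣ) : ℂ)) := by
    refine h1'.congr' ?_
    filter_upwards [LC_eventually_nhdsNE_zero] with z hz
    have him := Periodic.im_invQParam_pos_of_norm_lt_one hN hz.2 hz.1
    simp only [comp_apply, Pi.mul_apply, Pi.inv_apply]
    rw [UpperHalfPlane.cuspFunction, Periodic.cuspFunction_eq_of_nonzero _ _ hz.1, comp_apply,
      hGdef]
    simp only
    rw [discriminant_eq_q_prod, GR.HeckeField.qParam_affH]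
    have h4 : Periodic.qParam ((e : ℝ) / a) ((ofComplex (Periodic.invQParam N z) : ℍ) : ℂ)
        = z ^ k := by
      rw [ofComplex_apply_of_im_pos him]
      have h3 : Periodic.qParam N (Periodic.invQParam N z) = z :=
        Periodic.qParam_right_inv hN.ne' hz.1
      conv_rhs => rw [← h3]
      rw [Periodic.qParam, Periodic.qParam, ← Complex.exp_nat_mul]
      congr 1
      have hNC : (N : ℂ) ≠ 0 := by exact_mod_cast NeZero.ne N
      have haC : (a : ℂ) ≠ 0 := by exact_mod_cast ha.ne'
      have heC : (e : ℂ) ≠ 0 := by exact_mod_cast he.ne'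
      have hkC : (k : ℂ) * e = N * a := by exact_mod_cast hk
      push_cast
      field_simp
      linear_combination (-(Periodic.invQParam (N : ℝ) z)) * hkC
    rw [h4]
    have hzk : z ^ k ≠ 0 := pow_ne_zero _ hz.1
    field_simp
  have h3 : meromorphicOrderAt (UpperHalfPlane.cuspFunction N G * (fun z : ℂ => z ^ k)⁻¹) 0 = 0 :=
    (tendsto_ne_zero_iff_meromorphicOrderAt_eq_zero (han.meromorphicAt.mul hmer.inv)).mp
      ⟨_, (GR.HeckeField.rootU e b).ne_zero, h2⟩
  rw [meromorphicOrderAt_mul han.meromorphicAt hmer.inv, meromorphicOrderAt_inv] at h3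
  have h4 : meromorphicOrderAt (fun z : ℂ => z ^ k) 0 = (k : ℤ) := by
    have : meromorphicOrderAt ((fun z : ℂ => z) ^ k) 0 = (k : ℤ) := by
      simpa using meromorphicOrderAt_pow_id_sub_const (𝕜 := ℂ) (x := 0) (n := k)
    exact this
  rw [h4] at h3
  cases ho : meromorphicOrderAt (UpperHalfPlane.cuspFunction N G) 0 with
  | top => rw [ho] at h3; simp at h3
  | coe n =>
    rw [ho] at h3
    have h5 : n + -(k : ℤ) = 0 := by exact_mod_cast h3
    have : n = (k : ℤ) := by omega
    rw [this]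

open Filter Topology in
/-- **P3b.** exact value of `Winf` from the order of `Δ^m h`. -/
theorem Winf_algebraMap_of_order {N : ℕ} [NeZero N] (h : MerMod N) (m : ℕ) (k : ℤ)
    (hm : IsNice N (fun τ => Δ τ ^ m * h.1 τ))
    (hk : meromorphicOrderAt (UpperHalfPlane.cuspFunction N (fun τ => Δ τ ^ m * h.1 τ)) 0
      = (k : WithTop ℤ)) :
    Winf N (algebraMap (MerMod N) (S24.LL N) h) = WithZero.exp ((m : ℤ) * N - k) := by
  have hD : AnalyticAt ℂ (UpperHalfPlane.cuspFunction N Δ) 0 :=
    (isNice_discriminant N).LC_analyticAt_cuspFunction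
  have he : evQ N h * (UpperHalfPlane.cuspFunction N Δ) ^ m =ᶠ[𝓝[≠] 0]
      UpperHalfPlane.cuspFunction N (fun τ => Δ τ ^ m * h.1 τ) := by
    filter_upwards [self_mem_nhdsWithin] with z hz
    rw [Pi.mul_apply, Pi.pow_apply, LC_evQ_eq_div h (m := m) hz]
    have hne : UpperHalfPlane.cuspFunction N Δ z ≠ 0 := by
      rw [UpperHalfPlane.cuspFunction, Periodic.cuspFunction_eq_of_nonzero _ _ hz]
      exact ModularForm.discriminant_ne_zero _
    rw [div_mul_cancel₀ _ (pow_ne_zero _ hne)]
  have h1 := meromorphicOrderAt_congr he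
  rw [meromorphicOrderAt_mul (meromorphicAt_evQ h) (hD.meromorphicAt.pow m),
    meromorphicOrderAt_pow hD.meromorphicAt, Genus.forms_order_cuspFunction_discriminant, hk] at h1
  have h0 : h ≠ 0 := by
    rintro rfl
    have hz : (fun τ : ℍ => Δ τ ^ m * (0 : MerMod N).1 τ) = fun _ => 0 := by
      funext τ
      show Δ τ ^ m * 0 = 0
      rw [mul_zero]
    rw [hz] at hk
    have hc : UpperHalfPlane.cuspFunction N (fun _ : ℍ => (0 : ℂ)) =ᶠ[𝓝[≠] 0] fun _ => 0 := by
      filter_upwards [self_mem_nhdsWithin] with z hz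
      rw [UpperHalfPlane.cuspFunction, Periodic.cuspFunction_eq_of_nonzero _ _ hz]
      rfl
    rw [meromorphicOrderAt_congr hc] at hk
    have : meromorphicOrderAt (fun _ : ℂ => (0 : ℂ)) 0 = ⊤ :=
      meromorphicOrderAt_eq_top_iff.mpr (Eventually.of_forall fun _ => rfl)
    rw [this] at hk
    exact WithTop.top_ne_coe hk
  rw [Winf_algebraMap _ h0]
  congr 1
  cases ho : meromorphicOrderAt (evQ N h) 0 with
  | top => exact absurd ho (order_evQ_ne_top h h0)
  | coe n =>
    rw [ho] at h1
    rw [WithTop.untop₀_coe]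
    have h5 : n + (m : ℤ) * (N : ℤ) = k := by
      have : ((n + (m : ℤ) * (N : ℤ) : ℤ) : WithTop ℤ) = ((k : ℤ) : WithTop ℤ) := by
        simpa using h1
      exact_mod_cast this
    omega

end Fermat.Agent.GAL.KLC
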